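import Fermat.Agent.Carayol.Const.Basic

/-!
# The constants are as wanted
-/

set_option autoImplicit false
set_option linter.unusedSectionVars false

noncomputable section

namespace FA.Carayol

open FA.LocalDef FA.Local FA.Mazur.Wp

local notation "Qb" => AlgebraicClosure ℚ

variable [Algebra Qb ℂ] {A : ValuationSubring Qb} {q : ℕ} [hq : Fact q.Prime]

/-- The roots of unity in `ℂ` of a finite order come from `ℚ̄`. -/
theorem exists_of_eta {N : ℕ} [NeZero N] (b : ℤ) :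
    ∃ z : Qb, z ^ N = 1 ∧ algebraMap Qb ℂ z = eta N b := by
  obtain ⟨μ, hμ⟩ := HasEnoughRootsOfUnity.exists_primitiveRoot Qb N
  have hμ' : IsPrimitiveRoot (algebraMap Qb ℂ μ) N :=
    hμ.map_of_injective (algebraMap Qb ℂ).injective
  have h1 : (eta N b) ^ N = 1 := by
    rw [eta, ← Complex.exp_nat_mul, mul_div_cancel₀ _ (Nat.cast_ne_zero.mpr (NeZero.ne N)), tpi]
    exact Complex.exp_eq_one_iff.mpr ⟨b, by ring⟩
  obtain ⟨i, -, hi⟩ := hμ'.eq_pow_of_pow_eq_one h1
  exact ⟨μ ^ i, by rw [← pow_mul, mul_comm, pow_mul, hμ.pow_eq_one, one_pow],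
    by rw [map_pow, hi]⟩

/-- A root of unity of order `q * m` splits. -/
theorem exists_split {m : ℕ} (hm : ¬ q ∣ m) {z : Qb} (hz : z ^ (q * m) = 1) :
    ∃ a b : Qb, a ^ q = 1 ∧ b ^ m = 1 ∧ z = a * b := by
  obtain ⟨u, w, huw⟩ : IsCoprime (q : ℤ) (m : ℤ) := by
    rw [Int.isCoprime_iff_nat_coprime]
    simpa using (hq.out.coprime_iff_not_dvd.mpr hm)
  have hz0 : z ≠ 0 := fun h => by
    have hm0 : m ≠ 0 := fun h0 => hm (h0 ▸ dvd_zero q)
    rw [h, zero_pow (mul_ne_zero hq.out.ne_zero hm0)] at hz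
    exact zero_ne_one hz
  refine ⟨z ^ ((m : ℤ) * w), z ^ ((q : ℤ) * u), ?_, ?_, ?_⟩
  · rw [← zpow_natCast, ← zpow_mul, show (m : ℤ) * w * (q : ℕ) = ((q * m : ℕ) : ℤ) * w by push_cast; ring,
      zpow_mul, zpow_natCast, hz, one_zpow]
  · rw [← zpow_natCast, ← zpow_mul, show (q : ℤ) * u * (m : ℕ) = ((q * m : ℕ) : ℤ) * u by push_cast; ring,
      zpow_mul, zpow_natCast, hz, one_zpow]
  · rw [← zpow_add₀ hz0, show (m : ℤ) * w + (q : ℤ) * u = 1 by linear_combination huw, zpow_one]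

theorem mem_constK {c : ℂ} : c ∈ constK A q ↔ ∃ x ∈ constL A q, algebraMap Qb ℂ x = c := Iff.rfl

/-- An automorphism of `ℚ̄` preserving the constants, on their image in `ℂ`. -/
theorem exists_constK_equiv (σ : Qb ≃ₐ[ℚ] Qb) (h : ∀ z, z ∈ constL A q ↔ σ z ∈ constL A q) :
    ∃ τ : constK A q ≃+* constK A q, ∀ (x : Qb) (hx : algebraMap Qb ℂ x ∈ constK A q),
      (τ ⟨algebraMap Qb ℂ x, hx⟩ : ℂ) = algebraMap Qb ℂ (σ x) := by
  classical
  have hinj : Function.Injective (algebraMap Qb ℂ) := (algebraMap Qb ℂ).injective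
  let pre : constK A q → Qb := fun c => (mem_constK.mp c.2).choose
  have hpre : ∀ c, pre c ∈ constL A q ∧ algebraMap Qb ℂ (pre c) = c := fun c =>
    (mem_constK.mp c.2).choose_spec
  have hpre' : ∀ (x : Qb) (hx : algebraMap Qb ℂ x ∈ constK A q), pre ⟨_, hx⟩ = x := fun x hx =>
    hinj (hpre ⟨_, hx⟩).2
  let f : constK A q →+* constK A q :=
    { toFun := fun c => ⟨algebraMap Qb ℂ (σ (pre c)), mem_constK.mpr
        ⟨_, (h _).mp (hpre c).1, rfl⟩⟩
      map_one' := Subtype.ext (by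
        show algebraMap Qb ℂ (σ (pre 1)) = 1
        rw [show pre 1 = 1 from hinj (by rw [(hpre 1).2, map_one]; rfl), map_one, map_one])
      map_zero' := Subtype.ext (by
        show algebraMap Qb ℂ (σ (pre 0)) = 0
        rw [show pre 0 = 0 from hinj (by rw [(hpre 0).2, map_zero]; rfl), map_zero, map_zero])
      map_add' := fun a b => Subtype.ext (by
        show algebraMap Qb ℂ (σ (pre (a + b))) = _ + _
        rw [show pre (a + b) = pre a + pre b from
          hinj (by rw [(hpre _).2, map_add, (hpre _).2, (hpre _).2]; rfl), map_add, map_add])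
      map_mul' := fun a b => Subtype.ext (by
        show algebraMap Qb ℂ (σ (pre (a * b))) = _ * _
        rw [show pre (a * b) = pre a * pre b from
          hinj (by rw [(hpre _).2, map_mul, (hpre _).2, (hpre _).2]; rfl), map_mul, map_mul]) }
  have hsurj : Function.Surjective f := fun c => by
    have hmem : algebraMap Qb ℂ (σ.symm (pre c)) ∈ constK A q :=
      mem_constK.mpr ⟨_, (h _).mpr (by rw [AlgEquiv.apply_symm_apply]; exact (hpre c).1), rfl⟩
    refine ⟨⟨_, hmem⟩, Subtype.ext ?_⟩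
    show algebraMap Qb ℂ (σ (pre ⟨_, hmem⟩)) = (c : ℂ)
    rw [hpre', AlgEquiv.apply_symm_apply]
    exact (hpre c).2
  refine ⟨RingEquiv.ofBijective f ⟨RingHom.injective f, hsurj⟩, fun x hx => ?_⟩
  show algebraMap Qb ℂ (σ (pre ⟨_, hx⟩)) = _
  rw [hpre']

theorem constHolds (q : ℕ) [Fact q.Prime] : ConstHolds q := fun A hA m hm0 hm => by
  have hq : q.Prime := Fact.out
  have : NeZero q := ⟨hq.ne_zero⟩
  have : NeZero m := ⟨hm0⟩
  have hroot : ∀ z : Qb, z ^ (q * m) = 1 → z ∈ constL A q := fun z hz => by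
    obtain ⟨a, b, ha, hb, rfl⟩ := exists_split hm hz
    exact mul_mem ((le_sup_right : IntermediateField.adjoin ℚ {z : Qb | z ^ q = 1} ≤ constL A q)
      (IntermediateField.subset_adjoin ℚ _ ha))
      (kur_le_constL (mem_kur_of_pow_eq_one hA hm0 hm hb))
  refine ⟨fun b => ?_, constHyp_constL hA, fun n hn hqn => ?_, fun s hs hsm => ?_⟩
  · obtain ⟨z, hz, hzb⟩ := exists_of_eta (N := q * m) b
    exact mem_constK.mpr ⟨z, hroot z hz, hzb⟩
  · have : NeZero n := ⟨hn⟩
    obtain ⟨ζ, hζ⟩ := HasEnoughRootsOfUnity.exists_primitiveRoot Qb n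
    exact ⟨ζ, kur_le_constL (mem_kur_of_pow_eq_one hA hn hqn hζ.pow_eq_one), hζ⟩
  · -- an exponent in `ℕ` congruent to `s` modulo `q * m`
    set N : ℤ := ((q * m : ℕ) : ℤ) with hN
    have hN0 : N ≠ 0 := Int.natCast_ne_zero.mpr (mul_ne_zero hq.ne_zero hm0)
    obtain ⟨s₀, hs₀⟩ := Int.eq_ofNat_of_zero_le (Int.emod_nonneg s hN0)
    have hdvd : N ∣ s - (s₀ : ℤ) := hs₀ ▸ Int.dvd_self_sub_emod
    have hqs : ¬ q ∣ s₀ := fun hd => hs (by
      have h1 : (q : ℤ) ∣ s - (s₀ : ℤ) := dvd_trans ⟨m, by simp [hN]⟩ hdvd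
      simpa using dvd_add h1 (Int.natCast_dvd_natCast.mpr hd))
    have hms : (m : ℤ) ∣ (s₀ : ℤ) - 1 := by
      have h1 : (m : ℤ) ∣ s - (s₀ : ℤ) := dvd_trans ⟨q, by simp [hN]; ring⟩ hdvd
      have h2 := dvd_sub hsm h1
      rwa [sub_sub_sub_cancel_left] at h2
    obtain ⟨σ, hσ, hσq, hσL⟩ := exists_inertia_constL hA hqs
    obtain ⟨τ, hτ⟩ := exists_constK_equiv σ hσL
    refine ⟨τ, fun b hb => ?_, fun c hc => ?_, fun x y hx hy hxA => ?_⟩
    · obtain ⟨z, hz, hzb⟩ := exists_of_eta (N := q * m) b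
      have hσz : σ z = z ^ s₀ := by
        obtain ⟨a, c, ha, hc, rfl⟩ := exists_split hm hz
        rw [map_mul, hσq a ha, mem_kur.mp (mem_kur_of_pow_eq_one hA hm0 hm hc) σ hσ, mul_pow]
        congr 1
        have hc0 : c ≠ 0 := fun h => by rw [h, zero_pow hm0] at hc; exact zero_ne_one hc
        obtain ⟨k, hk⟩ := hms
        rw [← zpow_natCast, show (s₀ : ℤ) = (m : ℤ) * k + 1 by omega, zpow_add₀ hc0, zpow_mul,
          zpow_natCast, hc, one_zpow, one_mul, zpow_one]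
      have hb' : algebraMap Qb ℂ z ∈ constK A q := hzb ▸ hb
      rw [show (⟨eta (q * m) b, hb⟩ : constK A q) = ⟨algebraMap Qb ℂ z, hb'⟩ from
        Subtype.ext hzb.symm, hτ, hσz, map_pow, hzb]
      have e : eta (q * m) b ^ s₀ = eta (q * m) ((s₀ : ℤ) * b) := by
        rw [eta, eta, ← Complex.exp_nat_mul]
        congr 1
        push_cast
        ring
      rw [e]
      exact eta_congr (by
        rw [show (s₀ : ℤ) * b - s * b = -((s - s₀) * b) by ring]
        exact dvd_neg.mpr (hdvd.mul_right b))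
    · obtain ⟨x, hxk, hxc⟩ : ∃ x ∈ kur A, algebraMap Qb ℂ x = (c : ℂ) := hc
      have hx : algebraMap Qb ℂ x ∈ constK A q := hxc.symm ▸ c.2
      refine Subtype.ext ?_
      rw [show c = ⟨algebraMap Qb ℂ x, hx⟩ from Subtype.ext hxc.symm, hτ, mem_kur.mp hxk σ hσ]
    · rw [hτ] at hy
      rw [(algebraMap Qb ℂ).injective hy]
      exact (inert_of_mem_inertiaSubgroupIn A hσ).sub_lt x ((A.valuation_le_one_iff x).mpr hxA)

end FA.Carayol

end
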