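import Fermat.Agent.Carayol.Setup
import Fermat.Agent.LocalDef.Connected
import Fermat.Agent.LocalDef.Perturb
import Fermat.Agent.Mazur.UnitLift

/-!
# The unramified constants with the roots of unity of order `q` adjoined

An element fixed by the inertia elements which fix `ζ` lies in `kur A (ζ)`; the discrete valuation
ring of this field has uniformiser `1 - ζ`, all residues, and determines the place.
-/

set_option autoImplicit false
set_option linter.unusedSectionVars false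

noncomputable section

namespace FA.Carayol

open Polynomial FA.LocalDef FA.Local

local notation "Qb" => AlgebraicClosure ℚ
local notation "GQ" => AlgebraicClosure ℚ ≃ₐ[ℚ] AlgebraicClosure ℚ

variable {A : ValuationSubring Qb} {q : ℕ} [hq : Fact q.Prime]

local notation "v" => ValuationSubring.valuation A

theorem kur_le_constL : kur A ≤ constL A q := le_sup_left

/-- Roots of unity of order prime to `q` are fixed by inertia. -/
theorem mem_kur_of_pow_eq_one (hA : A.LiesOverPrime q) {N : ℕ} (hN : N ≠ 0) (hqN : ¬ q ∣ N)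
    {μ : Qb} (hμ : μ ^ N = 1) : μ ∈ kur A := mem_kur.mpr fun σ hσ => by
  have hμ0 : μ ≠ 0 := fun h => by rw [h, zero_pow hN] at hμ; exact zero_ne_one hμ
  have hv : v μ = 1 := map_eq_one_of_pow_eq_one A.valuation hN hμ
  refine (div_eq_one_iff_eq hμ0).mp (FA.Mazur.eq_one_of_near hN hqN hA
    (by rw [div_pow, ← map_pow, hμ, map_one, div_one]) ?_)
  rw [div_sub_one hμ0, map_div₀, hv, div_one]
  exact (inert_of_mem_inertiaSubgroupIn A hσ).sub_lt _ hv.le

/-- The layer of a primitive root, with the description of the constants. -/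
theorem exists_constL_layer (hA : A.LiesOverPrime q) : ∃ (ζ : Qb) (Λ : Layer A q),
    IsPrimitiveRoot ζ q ∧ Λ.N = Layer.stab A ζ ∧ Λ.π = 1 - ζ ∧ Λ.D = q - 1 ∧
      ∀ z : Qb, z ∈ constL A q ↔ ∀ τ ∈ Λ.N, τ z = z := by
  have hp : q.Prime := hq.out
  have : NeZero q := ⟨hp.ne_zero⟩
  obtain ⟨ζ, hζ⟩ := HasEnoughRootsOfUnity.exists_primitiveRoot Qb q
  obtain ⟨Λ, hN, hπ, hD⟩ := exists_cyclo_layer hp hA hζ
  refine ⟨ζ, Λ, hζ, hN, hπ, hD, fun z => ⟨fun hz τ hτ => ?_, fun hz => ?_⟩⟩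
  · have hle : constL A q ≤ IntermediateField.fixedField Λ.N := by
      refine sup_le (fun x hx => ?_) (IntermediateField.adjoin_le_iff.mpr fun x hx => ?_)
      · intro τ
        exact mem_kur.mp hx τ.1 (Λ.le τ.2)
      · intro τ
        obtain ⟨i, -, rfl⟩ := hζ.eq_pow_of_pow_eq_one hx
        have hfix : (τ : GQ) ζ = ζ := (hN ▸ τ.2 : (τ : GQ) ∈ Layer.stab A ζ).2
        show (τ : GQ) (ζ ^ i) = _
        rw [map_pow, hfix]
    exact hle hz ⟨τ, hτ⟩
  · obtain ⟨R, hR, hd, hev⟩ := Λ.exists_coords hz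
    have h1 := hev 1 (one_mem _)
    rw [AlgEquiv.one_apply, AlgEquiv.one_apply, eval_eq_sum_range' hd, hπ] at h1
    rw [← h1]
    have hζm : ζ ∈ constL A q :=
      (le_sup_right : IntermediateField.adjoin ℚ {z : Qb | z ^ q = 1} ≤ constL A q)
        (IntermediateField.subset_adjoin ℚ _ hζ.pow_eq_one)
    exact sum_mem fun i _ => mul_mem (kur_le_constL (hR i)) (pow_mem (sub_mem (one_mem _) hζm) _)

theorem mem_baseO_iff {L : Subfield Qb} {x : Qb} :
    x ∈ baseO A L ↔ v x ≤ 1 ∧ x ∈ L :=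
  ⟨fun h => ⟨(A.valuation_le_one_iff x).mpr h.1, h.2⟩,
    fun h => ⟨(A.valuation_le_one_iff x).mp h.1, h.2⟩⟩

/-- Every residue is the residue of a constant. -/
theorem exists_residue_kur (hA : A.LiesOverPrime q) {a : Qb} (ha : a ∈ A) :
    ∃ b : Qb, b ∈ kur A ∧ b ∈ A ∧ v (a - b) < 1 := by
  obtain ⟨b, hb, hfix⟩ := FA.Mazur.exists_fixed_lift hA (IsLocalRing.residue A ⟨a, ha⟩)
  refine ⟨b, mem_kur.mpr hfix, b.2, ?_⟩
  have h : IsLocalRing.residue A (⟨a, ha⟩ - b) = 0 := by rw [map_sub, hb, sub_self]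
  simpa using (FA.ModField.residueAt_eq_zero _).mp h

/-- The value group has rank one. -/
theorem exists_pow_le (hA : A.LiesOverPrime q) {x : Qb} (hx0 : x ≠ 0) (hx : v x < 1) :
    (∃ k : ℕ, v (q : Qb) ^ k ≤ v x) ∧ ∃ k : ℕ, v x ^ k ≤ v (q : Qb) := by
  obtain ⟨E, hfin, hgal, hE⟩ := exists_normal_layer {x}
  obtain ⟨b, hb, hbp⟩ := exists_unif_layer E hq.out hA
  obtain ⟨m, hm⟩ := hb.exists_zpow ⟨x, hE x (Finset.mem_singleton_self x)⟩
    (fun h => hx0 (congrArg Subtype.val h))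
  rw [vOn_apply] at hm
  have hb1 : v (b : Qb) < 1 := hb.lt_one
  have hbpos : 0 < v (b : Qb) := hb.pos
  set e := Nat.card ((A.inertiaSubgroupIn ℚ).map (resHom E))
  have he : 0 < e := Nat.card_pos
  have hm' : v x = v (b : Qb) ^ m := hm
  have hmpos : 0 < m := by
    by_contra hc
    exact not_lt.mpr (one_le_zpow_of_nonpos₀ hbpos hb1.le (by omega)) (hm' ▸ hx)
  obtain ⟨j, rfl⟩ := Int.eq_ofNat_of_zero_le hmpos.le
  rw [zpow_natCast] at hm'
  refine ⟨⟨j, ?_⟩, ⟨e, ?_⟩⟩
  · rw [← hbp, ← pow_mul, hm']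
    exact pow_le_pow_right_of_le_one' hb1.le (Nat.le_mul_of_pos_left j he)
  · rw [← hbp, hm', ← pow_mul]
    exact pow_le_pow_right_of_le_one' hb1.le (Nat.le_mul_of_pos_left e (by omega))

/-- The constants have the wanted properties. -/
theorem constHyp_constL (hA : A.LiesOverPrime q) : ∃ ϖ : baseO A (constL A q).toSubfield,
    v (ϖ : Qb) ^ (q - 1) = v (q : Qb) ∧ ConstHyp A (constL A q).toSubfield ϖ := by
  classical
  obtain ⟨ζ, Λ, hζ, hN, hπ, hD, hmem⟩ := exists_constL_layer hA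
  have hD0 : Λ.D = q - 1 := hD
  let ϖ : baseO A (constL A q).toSubfield :=
    ⟨Λ.π, mem_baseO_iff.mpr ⟨Λ.π_lt_one.le, (hmem _).mpr Λ.fixed⟩⟩
  have hunit : ∀ u : baseO A (constL A q).toSubfield, v (u : Qb) = 1 → IsUnit u := fun u hu => by
    have hu0 : (u : Qb) ≠ 0 := A.valuation.ne_zero_iff.mp (by rw [hu]; exact one_ne_zero)
    refine IsUnit.of_mul_eq_one (a := u)
      ⟨(u : Qb)⁻¹, mem_baseO_iff.mpr ⟨by rw [map_inv₀, hu, inv_one],
        inv_mem (mem_baseO_iff.mp u.2).2⟩⟩ (Subtype.ext ?_)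
    show (u : Qb) * (u : Qb)⁻¹ = 1
    exact mul_inv_cancel₀ hu0
  have hfac : ∀ x : baseO A (constL A q).toSubfield, x ≠ 0 →
      ∃ k : ℕ, Associated (ϖ ^ k) x := fun x hx => by
    have hx0 : (x : Qb) ≠ 0 := fun h => hx (Subtype.ext h)
    have hm := mem_baseO_iff.mp x.2
    obtain ⟨k, hk⟩ := Λ.exists_pow ((hmem _).mp hm.2) hx0 hm.1
    have hpk : v ((x : Qb) * (Λ.π ^ k)⁻¹) = 1 := by
      rw [map_mul, map_inv₀, map_pow, hk, mul_inv_cancel₀ (pow_ne_zero _ Λ.π_pos.ne')]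
    let u : baseO A (constL A q).toSubfield := ⟨(x : Qb) * (Λ.π ^ k)⁻¹, mem_baseO_iff.mpr
      ⟨hpk.le, mul_mem hm.2 (inv_mem (pow_mem ((hmem _).mpr Λ.fixed) k))⟩⟩
    refine ⟨k, (hunit u hpk).unit, Subtype.ext ?_⟩
    show Λ.π ^ k * ((x : Qb) * (Λ.π ^ k)⁻¹) = x
    rw [mul_comm (x : Qb), ← mul_assoc, mul_inv_cancel₀ (pow_ne_zero _ Λ.π_ne_zero), one_mul]
  have hirr : Irreducible ϖ := by
    refine ⟨fun h => ?_, fun a b hab => ?_⟩
    · obtain ⟨w, hw⟩ := isUnit_iff_exists_inv.mp h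
      have h1 := congrArg (fun t : baseO A (constL A q).toSubfield => v (t : Qb)) hw
      simp only [Subring.coe_mul, Subring.coe_one, map_mul, map_one] at h1
      exact absurd h1 (ne_of_lt (mul_lt_one_of_lt_of_le Λ.π_lt_one (mem_baseO_iff.mp w.2).1))
    · by_contra hc
      rw [not_or] at hc
      have hlt : ∀ c : baseO A (constL A q).toSubfield, ¬ IsUnit c → v (c : Qb) ≤ v Λ.π :=
        fun c hc => Λ.le_of_lt_one ((hmem _).mp (mem_baseO_iff.mp c.2).2)
          (lt_of_le_of_ne (mem_baseO_iff.mp c.2).1 fun h => hc (hunit c h))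
      have h1 := congrArg (fun t : baseO A (constL A q).toSubfield => v (t : Qb)) hab
      simp only [Subring.coe_mul, map_mul] at h1
      have h2 : v Λ.π ^ 1 ≤ v Λ.π ^ 2 := by
        rw [pow_one, sq]; exact h1.trans_le (mul_le_mul' (hlt a hc.1) (hlt b hc.2))
      have := Λ.pow_le_iff.mp h2
      omega
  refine ⟨ϖ, by rw [← hD0]; exact Λ.val, ?_, hirr, fun A' hsub hϖ => ?_, fun a ha => ?_,
    fun c hc => ?_⟩
  · exact IsDiscreteValuationRing.ofHasUnitMulPowIrreducibleFactorization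
      ⟨ϖ, hirr, fun {x} hx => hfac x hx⟩
  · -- the integral elements over the constants are integral at `A'`
    have hAA' : ∀ x, x ∈ A → x ∈ A' := fun x hx => by
      have horb : ({y | ∃ τ ∈ Λ.N, τ x = y} : Set Qb).Finite :=
        (Layer.orb_finite (A := A) x).subset fun y ⟨τ, hτ, h⟩ => ⟨τ, Λ.le hτ, h⟩
      set S := horb.toFinset
      let P : Qb[X] := ∏ r ∈ S, (X - C r)
      have hmapS : ∀ τ ∈ Λ.N, ∀ r ∈ S, τ r ∈ S := fun τ hτ r hr => by
        simp only [S, Set.Finite.mem_toFinset, Set.mem_ofPred_eq] at hr ⊢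
        obtain ⟨τ', hτ', rfl⟩ := hr
        exact ⟨τ * τ', mul_mem hτ hτ', rfl⟩
      have hP : ∀ i, P.coeff i ∈ A' := fun i => by
        refine hsub ⟨P.coeff i, mem_baseO_iff.mpr ⟨?_, (hmem _).mpr fun τ hτ => ?_⟩⟩
        · have hlifts : P ∈ Polynomial.lifts A.subtype := Subsemiring.prod_mem _ fun r hr => by
            simp only [S, Set.Finite.mem_toFinset, Set.mem_ofPred_eq] at hr
            obtain ⟨τ, hτ, rfl⟩ := hr
            refine ⟨X - C ⟨τ x, (A.valuation_le_one_iff _).mp ?_⟩, by simp⟩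
            rw [(inert_of_mem_inertiaSubgroupIn A (Λ.le hτ)).map_eq]
            exact (A.valuation_le_one_iff x).mpr hx
          obtain ⟨c, hc⟩ := (Polynomial.lifts_iff_coeff_lifts _).mp hlifts i
          rw [← hc]
          exact (A.valuation_le_one_iff _).mpr c.2
        · have e : P.map (τ : Qb →+* Qb) = P := by
            rw [Polynomial.map_prod]
            simp only [Polynomial.map_sub, map_X, map_C]
            refine Finset.prod_bij (fun r _ => τ r) (fun r hr => hmapS τ hτ r hr)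
              (fun a _ b _ h => τ.injective h)
              (fun r hr => ⟨τ⁻¹ r, hmapS _ (inv_mem hτ) r hr, by simp [AlgEquiv.aut_inv]⟩)
              (fun r _ => rfl)
          conv_rhs => rw [← e, coeff_map]
          rfl
      have hroot : P.eval x = 0 := by
        rw [eval_prod]
        refine Finset.prod_eq_zero (i := x) ?_ (by simp)
        simp only [S, Set.Finite.mem_toFinset, Set.mem_ofPred_eq]
        exact ⟨1, one_mem _, rfl⟩
      have hmon : P.Monic := monic_prod_of_monic _ _ fun r _ => monic_X_sub_C r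
      clear_value P
      obtain ⟨Q, hQ, -, hQm⟩ := Polynomial.lifts_and_degree_eq_and_monic (f := A'.subtype)
        ((Polynomial.lifts_iff_coeff_lifts P).mpr fun i => ⟨⟨_, hP i⟩, rfl⟩) hmon
      have hint : IsIntegral A' x := ⟨Q, hQm, by
        rw [show algebraMap A' Qb = A'.subtype from rfl, ← eval_map, hQ, hroot]⟩
      obtain ⟨y, hy⟩ := (IsIntegrallyClosed.isIntegral_iff (R := A') (K := Qb)).mp hint
      rw [← hy]; exact y.2
    refine SetLike.ext fun x => ⟨fun hx' => ?_, hAA' x⟩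
    by_contra hx
    have hx0 : x ≠ 0 := fun h => hx (h ▸ zero_mem A)
    have hlt : v x⁻¹ < 1 := by
      rw [map_inv₀]
      exact inv_lt_one_of_one_lt₀ (not_le.mp fun h => hx ((A.valuation_le_one_iff x).mp h))
    obtain ⟨k, hk⟩ := (exists_pow_le hA (inv_ne_zero hx0) hlt).2
    have hy : (x⁻¹ ^ k / Λ.π) ∈ A := by
      refine (A.valuation_le_one_iff _).mp ?_
      rw [map_div₀, map_pow]
      refine div_le_one_of_le₀ (hk.trans ?_) zero_le
      rw [← Λ.val]
      exact pow_le_of_le_one zero_le Λ.π_lt_one.le Λ.D_pos.ne'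
    have h1 : Λ.π * (x⁻¹ ^ k / Λ.π) * x ^ k = 1 := by
      rw [mul_div_cancel₀ _ Λ.π_ne_zero, ← mul_pow, inv_mul_cancel₀ hx0, one_pow]
    have h2 := congrArg A'.valuation h1
    rw [map_mul, map_mul, map_one] at h2
    refine absurd h2 (ne_of_lt (mul_lt_one_of_lt_of_le ?_ ?_))
    · exact mul_lt_one_of_lt_of_le hϖ ((A'.valuation_le_one_iff _).mpr (hAA' _ hy))
    · exact (A'.valuation_le_one_iff _).mpr (pow_mem hx' k)
  · obtain ⟨b, hb, hbA, hlt⟩ := exists_residue_kur hA ha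
    exact ⟨⟨b, mem_baseO_iff.mpr ⟨(A.valuation_le_one_iff b).mpr hbA, kur_le_constL hb⟩⟩, hlt⟩
  · have hc0 : (c : Qb) ≠ 0 := fun h => hc (Subtype.ext h)
    rcases ((A.valuation_le_one_iff (c : Qb)).mpr c.2).lt_or_eq with hlt | h1
    · obtain ⟨k, hk⟩ := (exists_pow_le hA hc0 hlt).1
      refine ⟨Λ.D * k, le_trans (le_of_eq ?_) hk⟩
      rw [← Λ.val, ← pow_mul]
      exact map_pow A.valuation Λ.π _
    · exact ⟨0, by rw [pow_zero, map_one, h1]⟩

/-- Inertia realises every exponent on the roots of unity of order `q` and preserves the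
constants. -/
theorem exists_inertia_constL (hA : A.LiesOverPrime q) {s : ℕ} (hs : ¬ q ∣ s) :
    ∃ σ ∈ A.inertiaSubgroupIn ℚ,
      (∀ z : Qb, z ^ q = 1 → σ z = z ^ s) ∧ ∀ z : Qb, z ∈ constL A q ↔ σ z ∈ constL A q := by
  have : NeZero q := ⟨hq.out.ne_zero⟩
  obtain ⟨ζ, Λ, hζ, hN, -, -, hmem⟩ := exists_constL_layer hA
  obtain ⟨σ, hσ, hσζ⟩ := exists_inertia_zeta hq.out hA hζ hs
  refine ⟨σ, hσ, fun z hz => ?_, fun z => ⟨fun h => ?_, fun h => ?_⟩⟩
  · obtain ⟨i, -, rfl⟩ := hζ.eq_pow_of_pow_eq_one hz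
    rw [map_pow, hσζ, ← pow_mul, ← pow_mul, mul_comm]
  · exact (hmem _).mpr (Λ.fixed_apply hσ ((hmem _).mp h))
  · have := (hmem _).mpr (Λ.fixed_apply (inv_mem hσ) ((hmem _).mp h))
    simpa [AlgEquiv.aut_inv] using this

end FA.Carayol

end
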